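/-
S36lib / Inst / Base  (helper5)  --  the BASE of the modular instance of route (TH)

For a valuation subring `A` of `ℚ̄` over the prime `q`:

* `K = Kfix A` (inertia-fixed field), `R = Wfix A` (a discrete valuation ring with uniformizer `q`,
  helper2's `Desc/Kfix`), `k = ResidueField (Wfix A)`, `kA = ResidueField A`;
* **`instAlgebraResW`** : the residue function fields `FRes A N` (and `kA` itself) as algebras over
  `k`, through `resMap A : k →+* kA`  (THE instance everybody should use);
* `constIso A N : J.ConstIso k kA (FRes A N)` (helper4's change of the constant field), so that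
  places / divisors / Riemann–Roch spaces / genus over `kA` transport to `k`;
* the base fields of `ThickCtx` for `π = q`:  `qK_mem`, `qK_inv_not_mem`, `exists_zpow_mul_unit`;
* `isCurveOfGenus_resW`, `hasPrincipalDivisors_resW`.
-/
import Mathlib
import Fermat.Agent.S36lib.Desc.Kfix
import Fermat.Agent.S36lib.J.BaseIso
import Fermat.Agent.S18lib.Setup.Modular
import Fermat.Agent.S18lib.Setup.CurveRR

set_option autoImplicit false
set_option linter.unusedSectionVars false

noncomputable section

namespace Fermat.Agent.S36lib.Inst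

open AlgebraicCurve IsLocalRing
open Fermat.Agent.S18lib Fermat.Agent.S36lib.Desc

local notation "Qb" => AlgebraicClosure ℚ

variable (A : ValuationSubring Qb)

/-! ### the residue function fields over the residue field of `Wfix A` -/

/-- `kA` as an algebra over `k = ResidueField (Wfix A)` -/
instance instAlgebraResWk : Algebra (ResidueField (Wfix A)) (ResidueField A) :=
  (resMap A).toAlgebra

/-- **`FRes A N` as an algebra over `k = ResidueField (Wfix A)`** -/
instance instAlgebraResW (N : ℕ) : Algebra (ResidueField (Wfix A)) (FRes A N) :=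
  ((algebraMap (ResidueField A) (FRes A N)).comp (resMap A)).toAlgebra

theorem algebraMap_resW (N : ℕ) (c : ResidueField (Wfix A)) :
    algebraMap (ResidueField (Wfix A)) (FRes A N) c =
      algebraMap (ResidueField A) (FRes A N) (resMap A c) := rfl

theorem algebraMap_resW_residue (N : ℕ) (w : Wfix A) :
    algebraMap (ResidueField (Wfix A)) (FRes A N) (residue (Wfix A) w) =
      algebraMap (ResidueField A) (FRes A N) (residue A (inclWA A w)) := by
  rw [algebraMap_resW, resMap_residue]

instance instIsScalarTowerResW (N : ℕ) :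
    IsScalarTower (ResidueField (Wfix A)) (ResidueField A) (FRes A N) :=
  IsScalarTower.of_algebraMap_eq fun _ => rfl

variable {A} {q : ℕ}

/-- **the change of the constant field `k → kA`** on `FRes A N` -/
def constIso (hq : q.Prime) (hA : A.LiesOverPrime q) (N : ℕ) :
    J.ConstIso (ResidueField (Wfix A)) (ResidueField A) (FRes A N) where
  e := resMap A
  bijective := resMap_bijective hq hA
  comp := fun _ => rfl

@[simp] theorem constIso_e (hq : q.Prime) (hA : A.LiesOverPrime q) (N : ℕ) :
    (constIso hq hA N).e = resMap A := rfl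

theorem isCurveOfGenus_resW (hq : q.Prime) (hA : A.LiesOverPrime q) {N g : ℕ}
    (h : IsCurveOfGenus (ResidueField A) (FRes A N) g) :
    IsCurveOfGenus (ResidueField (Wfix A)) (FRes A N) g :=
  (constIso hq hA N).isCurveOfGenus h

theorem hasPrincipalDivisors_resW (hq : q.Prime) (hA : A.LiesOverPrime q) {N : ℕ}
    (h : HasPrincipalDivisors (ResidueField A) (FRes A N)) :
    HasPrincipalDivisors (ResidueField (Wfix A)) (FRes A N) :=
  (constIso hq hA N).hasPrincipalDivisors h

/-! ### the base discrete valuation ring -/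

/-- the uniformizer `q` of `Wfix A`, as an element of `Kfix A` -/
def qK (A : ValuationSubring Qb) (q : ℕ) : Kfix A := (q : Kfix A)

theorem qK_eq (A : ValuationSubring Qb) (q : ℕ) : qK A q = ((qW A q : Wfix A) : Kfix A) := rfl

theorem qK_mem (A : ValuationSubring Qb) (q : ℕ) : qK A q ∈ Wfix A := (qW A q).2

theorem qK_ne_zero (hq : q.Prime) : qK A q ≠ 0 := by
  intro h
  apply qW_ne_zero (A := A) hq
  exact Subtype.ext h

theorem qK_inv_not_mem (hq : q.Prime) (hA : A.LiesOverPrime q) : (qK A q)⁻¹ ∉ Wfix A := by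
  intro h
  apply qW_not_isUnit (A := A) hA
  refine ⟨⟨qW A q, ⟨(qK A q)⁻¹, h⟩, ?_, ?_⟩, rfl⟩
  · apply Subtype.ext
    show qK A q * (qK A q)⁻¹ = 1
    exact mul_inv_cancel₀ (qK_ne_zero hq)
  · apply Subtype.ext
    show (qK A q)⁻¹ * qK A q = 1
    exact inv_mul_cancel₀ (qK_ne_zero hq)

/-- `Wfix A` is a discrete valuation ring with uniformizer `q` (shape of `ThickCtx`) -/
theorem exists_zpow_mul_unit (hq : q.Prime) (hA : A.LiesOverPrime q) (c : Kfix A) (hc : c ≠ 0) :
    ∃ m : ℤ, c * qK A q ^ (-m) ∈ Wfix A ∧ (c * qK A q ^ (-m))⁻¹ ∈ Wfix A := by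
  obtain ⟨m, u, hu⟩ := exists_zpow_mul_unit_Kfix hq hA hc
  have hq0 : ((q : ℕ) : Kfix A) ≠ 0 := qK_ne_zero hq
  have e : c * qK A q ^ (-m) = ((u : Wfix A) : Kfix A) := by
    rw [hu]
    show (q : Kfix A) ^ m * _ * (q : Kfix A) ^ (-m) = _
    rw [mul_comm, ← mul_assoc, ← zpow_add₀ hq0, neg_add_cancel, zpow_zero, one_mul]
  refine ⟨m, ?_, ?_⟩
  · rw [e]; exact (u : Wfix A).2
  · rw [e]
    have h1 : ((u : Wfix A) : Kfix A) * (((u⁻¹ : (Wfix A)ˣ) : Wfix A) : Kfix A) = 1 := by
      rw [← (Wfix A).coe_mul, Units.mul_inv]; rfl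
    rw [← eq_inv_of_mul_eq_one_right h1]
    exact ((u⁻¹ : (Wfix A)ˣ) : Wfix A).2

end Fermat.Agent.S36lib.Inst
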