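/-
S36lib / Inst / Datum  (helper5)  --  THE MODULAR THICK DATUM (level `M q²`) AND LOW DATUM (level `M q`)

* generic: `chartThick π e V₁ V₂ V₃ 𝓛 d y c₀ s x₁ x₂ x₃ : ThickDatum R F Fk Fk Fk` — the thick datum
  with the charts `y ≠ ∞`, `y ≠ c₀`:  `Q₁ᵢ = (redᵢ y)_∞`, `Q₂ᵢ = (redᵢ y - c̄₀)_0`  (analogue of
  `LSb.Unit.chartDatum`), with the trivial fields (nonnegativity, disjointness, `deg Q₂ᵢ = deg Q₁ᵢ`).

* modular (`A | q`, `q ∤ M`, `H = A.inertiaSubgroupIn ℚ`, `K = Kfix A`, `R = Wfix A`,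
  `k = ResidueField (Wfix A)`, `F = fixF (M q²) H`, `G = fixF (M q) H`, all residue function fields
  `= FRes A M` as `k`-algebras through `Inst.instAlgebraResW`):
  - `nodeD1`   : the level `M q` Gauss datum `v₁₀` over `(ℚ̄, A)` (`LSb.Val.gaussOne`), which
                 enumerates the supersingular places: `nS = Unit.modS nodeD1`,
                 `ssPt c = Unit.modX₂ nodeD1 c`, `ssPtF c = Unit.modX₁ hA nodeD1 c` (Frobenius image);
  - `triplePt c : Place k (FRes A M)` := `ssPt c` seen over `k`;  **`x₁ = x₂ = x₃ = triplePt`**;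
  - `c0bar₂`, `c0W : Wfix A` : the chart constant (its residue avoids the values of `j̄` and of
    `(j̄^q)^q` at the supersingular places);
  - `P₁ = (j)_∞`, `P₂ = (j - c₀)_0` on `FB (M q²)`, `𝓛 = Fin.chartL (M q²) H P₁ P₂`, `d = ψ(M q²)`;
  - **`modThick V₁ V₂ V₃`** : the thick datum, for ANY `K`-rational data `V₁ V₃ : GaussDatum (Wfix A) F
    (FRes A M)`, `V₂ : RamGaussDatum (Wfix A) F (FRes A M)`  (`π = q`, `e = q - 1`, `y = xTopFix = j`);
  - **`modLow W₁ W₂`** : the low datum: `𝓛' = regAway j ∩ G`, and `2 nS` nodes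
    `(ssPtF c, ssPt c)` [index `castAdd`] and `(ssPt c, ssPtF c)` [index `natAdd`]; `cβ = castAdd`,
    `cα = natAdd` (so no relation `Frob² = id` on the supersingular places is needed).
-/
import Mathlib
import Fermat.Agent.S36lib.Inst.Base
import Fermat.Agent.S36lib.Thick.Datum
import Fermat.Agent.S36lib.Norm.ThickBridge
import Fermat.Agent.S36lib.Norm.DescendInst
import Fermat.Agent.S36lib.J.Setup
import Fermat.Agent.S36lib.Fin.ChartInst
import Fermat.Agent.LSb.Unit.Instance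
import Fermat.Agent.LSb.Val.D1H
import Fermat.Agent.LSb.Old.Fields

set_option autoImplicit false
set_option linter.unusedSectionVars false

noncomputable section

namespace Fermat.Agent.S36lib.Inst

open AlgebraicCurve ModularCurve IsLocalRing
open Fermat.Agent.S18lib Fermat.Agent.ProgramR
open Fermat.Agent.S36lib.Thick Fermat.Agent.S36lib.Desc Fermat.Agent.S36lib.Desc2
open Fermat.Agent.S37lib.HeckeInst (FB)

local notation "Qb" => AlgebraicClosure ℚ
local notation "GQ" => (AlgebraicClosure ℚ ≃ₐ[ℚ] AlgebraicClosure ℚ)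

/-! ### the generic chart datum -/

section Generic

variable {K : Type*} [Field K] {R : ValuationSubring K}
variable {F : Type*} [Field F] [Algebra K F]
variable {Fk : Type*} [Field Fk] [Algebra (ResidueField R) Fk]
variable [HasPrincipalDivisors (ResidueField R) Fk]

/-- the total reduction of a ramified Gauss datum -/
def ramRedF (V₂ : RamGaussDatum R F Fk) (y : F) : Fk := (Norm.ofRamGauss V₂).redF y

/-- **the thick datum with the charts `y ≠ ∞`, `y ≠ c₀`** -/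
def chartThick (π : K) (e : ℕ) (V₁ : GaussDatum R F Fk) (V₂ : RamGaussDatum R F Fk)
    (V₃ : GaussDatum R F Fk) (𝓛 : ℕ → ℕ → Submodule K F) (d : ℕ) (y : F) (c₀ : R) (s : ℕ)
    (x₁ x₂ x₃ : Fin s → Place (ResidueField R) Fk) : ThickDatum R F Fk Fk Fk where
  π := π
  e := e
  V₁ := V₁
  V₂ := V₂
  V₃ := V₃
  𝓛 := 𝓛
  d₁ := d
  d₂ := d
  Q₁₁ := polesOf (K := ResidueField R) (V₁.redF y)
  Q₂₁ := zerosOf (K := ResidueField R) (V₁.redF y - algebraMap (ResidueField R) Fk (residue R c₀))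
  Q₁₂ := polesOf (K := ResidueField R) (ramRedF V₂ y)
  Q₂₂ := zerosOf (K := ResidueField R) (ramRedF V₂ y - algebraMap (ResidueField R) Fk (residue R c₀))
  Q₁₃ := polesOf (K := ResidueField R) (V₃.redF y)
  Q₂₃ := zerosOf (K := ResidueField R) (V₃.redF y - algebraMap (ResidueField R) Fk (residue R c₀))
  s := s
  x₁ := x₁
  x₂ := x₂
  x₃ := x₃

variable (π : K) (e : ℕ) (V₁ : GaussDatum R F Fk) (V₂ : RamGaussDatum R F Fk)
    (V₃ : GaussDatum R F Fk) (𝓛 : ℕ → ℕ → Submodule K F) (d : ℕ) (y : F) (c₀ : R) (s : ℕ)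
    (x₁ x₂ x₃ : Fin s → Place (ResidueField R) Fk)

theorem chartThick_red₂ (f : F) :
    (chartThick π e V₁ V₂ V₃ 𝓛 d y c₀ s x₁ x₂ x₃).red₂ f = ramRedF V₂ f := rfl

theorem chartThick_Q₁₁_nonneg : 0 ≤ (chartThick π e V₁ V₂ V₃ 𝓛 d y c₀ s x₁ x₂ x₃).Q₁₁ :=
  polesOf_nonneg _
theorem chartThick_Q₂₁_nonneg : 0 ≤ (chartThick π e V₁ V₂ V₃ 𝓛 d y c₀ s x₁ x₂ x₃).Q₂₁ :=
  zerosOf_nonneg _
theorem chartThick_Q₁₂_nonneg : 0 ≤ (chartThick π e V₁ V₂ V₃ 𝓛 d y c₀ s x₁ x₂ x₃).Q₁₂ :=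
  polesOf_nonneg _
theorem chartThick_Q₂₂_nonneg : 0 ≤ (chartThick π e V₁ V₂ V₃ 𝓛 d y c₀ s x₁ x₂ x₃).Q₂₂ :=
  zerosOf_nonneg _
theorem chartThick_Q₁₃_nonneg : 0 ≤ (chartThick π e V₁ V₂ V₃ 𝓛 d y c₀ s x₁ x₂ x₃).Q₁₃ :=
  polesOf_nonneg _
theorem chartThick_Q₂₃_nonneg : 0 ≤ (chartThick π e V₁ V₂ V₃ 𝓛 d y c₀ s x₁ x₂ x₃).Q₂₃ :=
  zerosOf_nonneg _

theorem chartThick_Q₁_disjoint :
    Disjoint (chartThick π e V₁ V₂ V₃ 𝓛 d y c₀ s x₁ x₂ x₃).Q₁₁.support
      (chartThick π e V₁ V₂ V₃ 𝓛 d y c₀ s x₁ x₂ x₃).Q₂₁.support :=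
  LSb.Old.disjoint_support_polesOf_zerosOf_sub (V₁.redF y) (residue R c₀)

theorem chartThick_Q₂_disjoint :
    Disjoint (chartThick π e V₁ V₂ V₃ 𝓛 d y c₀ s x₁ x₂ x₃).Q₁₂.support
      (chartThick π e V₁ V₂ V₃ 𝓛 d y c₀ s x₁ x₂ x₃).Q₂₂.support :=
  LSb.Old.disjoint_support_polesOf_zerosOf_sub (ramRedF V₂ y) (residue R c₀)

theorem chartThick_Q₃_disjoint :
    Disjoint (chartThick π e V₁ V₂ V₃ 𝓛 d y c₀ s x₁ x₂ x₃).Q₁₃.support
      (chartThick π e V₁ V₂ V₃ 𝓛 d y c₀ s x₁ x₂ x₃).Q₂₃.support :=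
  LSb.Old.disjoint_support_polesOf_zerosOf_sub (V₃.redF y) (residue R c₀)

theorem chartThick_degree_Q₂₁ :
    Divisor.degree (chartThick π e V₁ V₂ V₃ 𝓛 d y c₀ s x₁ x₂ x₃).Q₂₁ =
      Divisor.degree (chartThick π e V₁ V₂ V₃ 𝓛 d y c₀ s x₁ x₂ x₃).Q₁₁ :=
  LSb.Old.degree_zerosOf_sub_const (V₁.redF y) (residue R c₀)

theorem chartThick_degree_Q₂₂ :
    Divisor.degree (chartThick π e V₁ V₂ V₃ 𝓛 d y c₀ s x₁ x₂ x₃).Q₂₂ =
      Divisor.degree (chartThick π e V₁ V₂ V₃ 𝓛 d y c₀ s x₁ x₂ x₃).Q₁₂ :=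
  LSb.Old.degree_zerosOf_sub_const (ramRedF V₂ y) (residue R c₀)

theorem chartThick_degree_Q₂₃ :
    Divisor.degree (chartThick π e V₁ V₂ V₃ 𝓛 d y c₀ s x₁ x₂ x₃).Q₂₃ =
      Divisor.degree (chartThick π e V₁ V₂ V₃ 𝓛 d y c₀ s x₁ x₂ x₃).Q₁₃ :=
  LSb.Old.degree_zerosOf_sub_const (V₃.redF y) (residue R c₀)

end Generic

/-! ### the modular data -/

section Modular

variable (M q : ℕ) [NeZero M] [NeZero q] [hq : Fact q.Prime] (A : ValuationSubring Qb)
  (hqM : ¬ q ∣ M) (hA : A.LiesOverPrime q)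

local notation "kA" => IsLocalRing.ResidueField A
local notation "kW" => IsLocalRing.ResidueField (Wfix A)

/-- the inertia group -/
abbrev HI : Subgroup GQ := A.inertiaSubgroupIn ℚ

/-- the function field of level `M q²` over `Kfix A` -/
abbrev FTop : Type := fixF (M * q * q) (HI A)

/-- the function field of level `M q` over `Kfix A` -/
abbrev FMid : Type := fixF (M * q) (HI A)

/-- the level `M q` Gauss datum `v₁₀` over `(ℚ̄, A)`: it enumerates the supersingular places -/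
def nodeD1 : GaussDatum A (FBar (M * q)) (FRes A M) := LSb.Val.gaussOne M q A hqM hA

theorem isGaussOne_nodeD1 : LSb.Old.IsGaussOne (nodeD1 M q A hqM hA) :=
  LSb.Val.isGaussOne_gaussOne M q A hqM hA

/-- the number of supersingular places -/
def nS : ℕ := LSb.Unit.modS (nodeD1 M q A hqM hA)

/-- the supersingular places (over `kA`) -/
def ssPt : Fin (nS M q A hqM hA) → Place kA (FRes A M) := LSb.Unit.modX₂ (nodeD1 M q A hqM hA)

/-- the Frobenius images of the supersingular places (over `kA`) -/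
def ssPtF : Fin (nS M q A hqM hA) → Place kA (FRes A M) := LSb.Unit.modX₁ hA (nodeD1 M q A hqM hA)

/-- **the triple points** (over `kW`): `x₁ = x₂ = x₃ = triplePt` -/
def triplePt : Fin (nS M q A hqM hA) → Place kW (FRes A M) :=
  fun c => (constIso hq.out hA M).place (ssPt M q A hqM hA c)

/-- the Frobenius images of the supersingular places (over `kW`) -/
def triplePtF : Fin (nS M q A hqM hA) → Place kW (FRes A M) :=
  fun c => (constIso hq.out hA M).place (ssPtF M q A hqM hA c)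

/-- a constant of `kA` which is not a value of `j̄` nor of `(j̄ ^ q) ^ q` at a supersingular place -/
def c0bar₂ : kA :=
  Classical.epsilon fun c : kA => ∀ x' ∈ LSb.Unit.modNodes (nodeD1 M q A hqM hA),
    ¬ LSb.HasValueAt x' (Gink.jK A M) c ∧ ¬ LSb.HasValueAt x' ((Gink.jK A M ^ q) ^ q) c

/-- **the chart constant** `c₀ ∈ Wfix A` -/
def c0W : Wfix A :=
  Classical.epsilon fun w : Wfix A => residue A (inclWA A w) = c0bar₂ M q A hqM hA

/-- `j` at level `M q²`, in the fixed field -/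
abbrev jTop : FTop M q A := Norm.xTopFix M q (HI A)

/-- the first chart divisor `P₁ = (j)_∞` on `FB (M q²)` -/
def chartP₁ : Divisor Qb (FB (M * q * q)) :=
  haveI := S37lib.HeckeInst.hasPrincipalDivisors_FB (M * q * q)
  polesOf (K := Qb) ((jTop M q A : FTop M q A) : FB (M * q * q))

/-- the second chart divisor `P₂ = (j - c₀)_0` on `FB (M q²)` -/
def chartP₂ : Divisor Qb (FB (M * q * q)) :=
  haveI := S37lib.HeckeInst.hasPrincipalDivisors_FB (M * q * q)
  zerosOf (K := Qb) (((jTop M q A : FTop M q A) : FB (M * q * q)) -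
    algebraMap Qb (FB (M * q * q)) (algebraMap (fixK (HI A)) Qb ((c0W M q A hqM hA : Wfix A) : Kfix A)))

variable [HasPrincipalDivisors (IsLocalRing.ResidueField (Wfix A)) (FRes A M)]

/-- **THE MODULAR THICK DATUM** for `K`-rational data `V₁` (`= v₂₀`), `V₂` (`= v₁₁`), `V₃` (`= v₀₂`) -/
def modThick (V₁ : GaussDatum (Wfix A) (FTop M q A) (FRes A M))
    (V₂ : RamGaussDatum (Wfix A) (FTop M q A) (FRes A M))
    (V₃ : GaussDatum (Wfix A) (FTop M q A) (FRes A M)) :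
    ThickDatum (Wfix A) (FTop M q A) (FRes A M) (FRes A M) (FRes A M) :=
  chartThick (qK A q) (q - 1) V₁ V₂ V₃
    (Fin.chartL (M * q * q) (HI A) (chartP₁ M q A) (chartP₂ M q A hqM hA))
    (dedekindPsi (M * q * q)) (jTop M q A) (c0W M q A hqM hA) (nS M q A hqM hA)
    (triplePt M q A hqM hA) (triplePt M q A hqM hA) (triplePt M q A hqM hA)

/-- **THE MODULAR LOW DATUM** for `K`-rational data `W₁` (`= v₁₀`), `W₂` (`= v₀₁`) -/
def modLow (W₁ W₂ : GaussDatum (Wfix A) (FMid M q A) (FRes A M)) :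
    J.LowDatum (Wfix A) (FMid M q A) (FRes A M) (FRes A M) where
  W₁ := W₁
  W₂ := W₂
  𝓛' := {g | ((g : FMid M q A) : FB (M * q)) ∈ LSb.Unit.regAway Qb (Gin0.jF (M * q))}
  s' := nS M q A hqM hA + nS M q A hqM hA
  y₁ := Fin.append (triplePtF M q A hqM hA) (triplePt M q A hqM hA)
  y₂ := Fin.append (triplePt M q A hqM hA) (triplePtF M q A hqM hA)

/-- the node under the triple point `c` along `α`: the pair `(ssPt c, ssPtF c)` -/
def nodeα (c : Fin (nS M q A hqM hA)) : Fin (nS M q A hqM hA + nS M q A hqM hA) :=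
  Fin.natAdd _ c

/-- the node under the triple point `c` along `β`: the pair `(ssPtF c, ssPt c)` -/
def nodeβ (c : Fin (nS M q A hqM hA)) : Fin (nS M q A hqM hA + nS M q A hqM hA) :=
  Fin.castAdd _ c

end Modular

end Fermat.Agent.S36lib.Inst
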