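/-
S36lib / Inst / Ctx  (helper5)  --  the "easy" fields of `Reg.ThickBase` for the modular thick datum

For `D = modThick M q A hqM hA V₁ V₂ V₃` and the hypothesis `RedJ` (`red₁ j = j̄`, `red₂ j = j̄`,
`red₃ j = (j̄ ^ q) ^ q`):

* `modThick_hF`            : the three components have genus `gM` over `k = ResidueField (Wfix A)`;
* the base fields (`π_mem`, `π_not_unit`, `exists_zpow_mul_unit`, `e_pos`);
* `Q`-shape: nonnegativity, disjointness, `deg_Q_ij_pos`, **`deg_Q₁_le`, `deg_Q₂_le`**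
  (`ψ(M) + (q-1) ψ(M) + q² ψ(M) = ψ(M q²)`);
* triple points: `triplePt_injective`, **`x₁/x₂/x₃_not_mem`**;
* `count` (from `Count/ModSq`), `s_pos`;
* `degree_chartP₁`, `degree_chartP₂` (`= ψ(M q²)`: the fields `d₁_eq`, `d₂_eq` of helper3's `HasCharts`).
-/
import Mathlib
import Fermat.Agent.S36lib.Inst.Datum
import Fermat.Agent.S36lib.Reg.Thick
import Fermat.Agent.S36lib.Count.ModSq
import Fermat.Agent.LSb.Unit.NodePos
import Fermat.Agent.S36lib.Norm.ChartNorm

set_option autoImplicit false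
set_option linter.unusedSectionVars false
set_option linter.unusedVariables false
set_option linter.style.haveILetI false

noncomputable section

namespace Fermat.Agent.S36lib.Inst

open AlgebraicCurve ModularCurve IsLocalRing
open Fermat.Agent.S18lib Fermat.Agent.ProgramR
open Fermat.Agent.S36lib.Thick Fermat.Agent.S36lib.Desc Fermat.Agent.S36lib.Desc2
open Fermat.Agent.S37lib.HeckeInst (FB)

local notation "Qb" => AlgebraicClosure ℚ
local notation "GQ" => (AlgebraicClosure ℚ ≃ₐ[ℚ] AlgebraicClosure ℚ)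

/-! ### transport of pole and zero divisors along a change of the constant field -/

section Transport

variable {k k' F : Type*} [Field k] [Field k'] [Field F] [Algebra k F] [Algebra k' F]
variable (I : J.ConstIso k k' F) [HasPrincipalDivisors k F] [HasPrincipalDivisors k' F]

theorem divisor_polesOf (f : F) : I.divisor (polesOf (K := k') f) = polesOf (K := k) f := by
  ext Q
  rw [I.divisor_apply, polesOf_apply, polesOf_apply, I.ord_placeInv]

theorem divisor_zerosOf (f : F) : I.divisor (zerosOf (K := k') f) = zerosOf (K := k) f := by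
  ext Q
  rw [I.divisor_apply, zerosOf_apply, zerosOf_apply, I.ord_placeInv]

include I in
theorem degree_polesOf_constIso (f : F) :
    Divisor.degree (polesOf (K := k) f) = Divisor.degree (polesOf (K := k') f) := by
  rw [← divisor_polesOf I, I.degree_divisor]

theorem mem_place_iff (Q : Place k' F) (f : F) :
    f ∈ (I.place Q).toValuationSubring ↔ f ∈ Q.toValuationSubring := Iff.rfl

end Transport

section Modular

variable {M q : ℕ} [NeZero M] [NeZero q] [hq : Fact q.Prime] {A : ValuationSubring Qb}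
  {hqM : ¬ q ∣ M} {hA : A.LiesOverPrime q}

local notation "kA" => IsLocalRing.ResidueField A
local notation "kW" => IsLocalRing.ResidueField (Wfix A)

variable [HasPrincipalDivisors (IsLocalRing.ResidueField A) (FRes A M)]

/-! ### the chart constant -/

theorem c0bar₂_spec :
    ∀ x' ∈ LSb.Unit.modNodes (nodeD1 M q A hqM hA),
      ¬ LSb.HasValueAt x' (Gink.jK A M) (c0bar₂ M q A hqM hA) ∧
        ¬ LSb.HasValueAt x' ((Gink.jK A M ^ q) ^ q) (c0bar₂ M q A hqM hA) := by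
  classical
  have : IsAlgClosed kA := Gink.isAlgClosed_residueField A
  have hfin := LSb.Unit.modNodes_finite (isGaussOne_nodeD1 M q A hqM hA)
  -- avoid the finitely many values of both functions
  have hbad : ((⋃ x' ∈ LSb.Unit.modNodes (nodeD1 M q A hqM hA),
      {c : kA | LSb.HasValueAt x' (Gink.jK A M) c}) ∪
      (⋃ x' ∈ LSb.Unit.modNodes (nodeD1 M q A hqM hA),
        {c : kA | LSb.HasValueAt x' ((Gink.jK A M ^ q) ^ q) c})).Finite := by
    refine Set.Finite.union ?_ ?_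
    · refine Set.Finite.biUnion hfin fun x' _ => Set.Subsingleton.finite ?_
      intro c hc d hd
      exact LSb.HasValueAt.unique hc hd
    · refine Set.Finite.biUnion hfin fun x' _ => Set.Subsingleton.finite ?_
      intro c hc d hd
      exact LSb.HasValueAt.unique hc hd
  obtain ⟨c, hc⟩ := hbad.infinite_compl.nonempty
  have hex : ∃ c : kA, ∀ x' ∈ LSb.Unit.modNodes (nodeD1 M q A hqM hA),
      ¬ LSb.HasValueAt x' (Gink.jK A M) c ∧ ¬ LSb.HasValueAt x' ((Gink.jK A M ^ q) ^ q) c := by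
    refine ⟨c, fun x' hx' => ⟨fun h => hc (Or.inl ?_), fun h => hc (Or.inr ?_)⟩⟩
    · exact Set.mem_biUnion hx' h
    · exact Set.mem_biUnion hx' h
  exact Classical.epsilon_spec hex

theorem residue_c0W :
    residue A (inclWA A (c0W M q A hqM hA)) = c0bar₂ M q A hqM hA := by
  have hex : ∃ w : Wfix A, residue A (inclWA A w) = c0bar₂ M q A hqM hA := by
    obtain ⟨c, hc⟩ := (resMap_bijective hq.out hA).2 (c0bar₂ M q A hqM hA)
    obtain ⟨w, rfl⟩ := residue_surjective c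
    exact ⟨w, by rw [← resMap_residue]; exact hc⟩
  exact Classical.epsilon_spec hex

theorem resMap_residue_c0W :
    resMap A (residue (Wfix A) (c0W M q A hqM hA)) = c0bar₂ M q A hqM hA := by
  rw [resMap_residue, residue_c0W]

/-! ### the triple points -/

theorem ssPt_mem (c : Fin (nS M q A hqM hA)) :
    ssPt M q A hqM hA c ∈ LSb.Unit.modNodes (nodeD1 M q A hqM hA) :=
  LSb.Unit.nodeEnum_mem (K := kA) (Gink.jK A M) (LSb.Unit.H₂ (nodeD1 M q A hqM hA)) c

theorem triplePt_injective : Function.Injective (triplePt M q A hqM hA) := by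
  intro c d hcd
  have h1 : ssPt M q A hqM hA c = ssPt M q A hqM hA d :=
    (constIso hq.out hA M).placeEquiv.injective hcd
  exact LSb.Unit.modX₂_injective h1

/-- `j̄` is regular at the triple points -/
theorem jK_mem_triplePt (c : Fin (nS M q A hqM hA)) :
    Gink.jK A M ∈ (triplePt M q A hqM hA c).toValuationSubring := by
  have := ssPt_mem (hqM := hqM) (hA := hA) c
  rw [LSb.Unit.modNodes, LSb.Unit.mem_nodeSet] at this
  exact this.1

theorem not_hasValueAt_triplePt₁ (c : Fin (nS M q A hqM hA)) :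
    ¬ (triplePt M q A hqM hA c).adicValuation
      (Gink.jK A M - algebraMap kW (FRes A M) (residue (Wfix A) (c0W M q A hqM hA))) < 1 := by
  have h := (c0bar₂_spec (hqM := hqM) (hA := hA) _ (ssPt_mem c)).1
  rw [algebraMap_resW, resMap_residue_c0W]
  exact h

theorem not_hasValueAt_triplePt₃ (c : Fin (nS M q A hqM hA)) :
    ¬ (triplePt M q A hqM hA c).adicValuation
      ((Gink.jK A M ^ q) ^ q -
        algebraMap kW (FRes A M) (residue (Wfix A) (c0W M q A hqM hA))) < 1 := by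
  have h := (c0bar₂_spec (hqM := hqM) (hA := hA) _ (ssPt_mem c)).2
  rw [algebraMap_resW, resMap_residue_c0W]
  exact h

/-! ### the reductions of `j` -/

variable [HasPrincipalDivisors (IsLocalRing.ResidueField (Wfix A)) (FRes A M)]

/-- the reductions of `j = j(t)` on the three components: `j̄`, `j̄`, `(j̄ ^ q) ^ q` -/
structure RedJ (V₁ : GaussDatum (Wfix A) (FTop M q A) (FRes A M))
    (V₂ : RamGaussDatum (Wfix A) (FTop M q A) (FRes A M))
    (V₃ : GaussDatum (Wfix A) (FTop M q A) (FRes A M)) : Prop where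
  red₁ : V₁.redF (jTop M q A) = Gink.jK A M
  red₂ : ramRedF V₂ (jTop M q A) = Gink.jK A M
  red₃ : V₃.redF (jTop M q A) = (Gink.jK A M ^ q) ^ q

variable {V₁ : GaussDatum (Wfix A) (FTop M q A) (FRes A M)}
  {V₂ : RamGaussDatum (Wfix A) (FTop M q A) (FRes A M)}
  {V₃ : GaussDatum (Wfix A) (FTop M q A) (FRes A M)}

/-! ### degrees -/

/-- `deg (j̄)_∞ = ψ(M)` over `kW` -/
theorem degree_polesOf_jK_resW [HasPrincipalDivisors Qb (FBar M)] (hqM : ¬ q ∣ M)
    (hA : A.LiesOverPrime q) :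
    Divisor.degree (polesOf (K := kW) (Gink.jK A M)) = (dedekindPsi M : ℤ) := by
  rw [degree_polesOf_constIso (constIso hq.out hA M), LSb.Old.degree_polesOf_jK hqM hA]

/-- `ψ(M q²) = q (q + 1) ψ(M)` -/
theorem dedekindPsi_sq (hqM : ¬ q ∣ M) :
    dedekindPsi (M * q * q) = q * ((q + 1) * dedekindPsi M) := by
  have hM : M ≠ 0 := NeZero.ne M
  have hMq : M * q ≠ 0 := mul_ne_zero hM hq.out.ne_zero
  rw [dedekindPsi_mul_prime_of_dvd hMq hq.out (Dvd.intro_left M rfl),
    dedekindPsi_mul_prime_of_not_dvd hM hq.out hqM]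

theorem modThick_Q₁₁ (h : RedJ V₁ V₂ V₃) :
    (modThick M q A hqM hA V₁ V₂ V₃).Q₁₁ = polesOf (K := kW) (Gink.jK A M) := by
  show polesOf (K := kW) (V₁.redF (jTop M q A)) = _
  rw [h.red₁]

theorem modThick_Q₁₂ (h : RedJ V₁ V₂ V₃) :
    (modThick M q A hqM hA V₁ V₂ V₃).Q₁₂ = polesOf (K := kW) (Gink.jK A M) := by
  show polesOf (K := kW) (ramRedF V₂ (jTop M q A)) = _
  rw [h.red₂]

theorem modThick_Q₁₃ (h : RedJ V₁ V₂ V₃) :
    (modThick M q A hqM hA V₁ V₂ V₃).Q₁₃ = polesOf (K := kW) ((Gink.jK A M ^ q) ^ q) := by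
  show polesOf (K := kW) (V₃.redF (jTop M q A)) = _
  rw [h.red₃]

theorem modThick_Q₂₁ (h : RedJ V₁ V₂ V₃) :
    (modThick M q A hqM hA V₁ V₂ V₃).Q₂₁ = zerosOf (K := kW) (Gink.jK A M -
      algebraMap kW (FRes A M) (residue (Wfix A) (c0W M q A hqM hA))) := by
  show zerosOf (K := kW) (V₁.redF (jTop M q A) - _) = _
  rw [h.red₁]

theorem modThick_Q₂₂ (h : RedJ V₁ V₂ V₃) :
    (modThick M q A hqM hA V₁ V₂ V₃).Q₂₂ = zerosOf (K := kW) (Gink.jK A M -
      algebraMap kW (FRes A M) (residue (Wfix A) (c0W M q A hqM hA))) := by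
  show zerosOf (K := kW) (ramRedF V₂ (jTop M q A) - _) = _
  rw [h.red₂]

theorem modThick_Q₂₃ (h : RedJ V₁ V₂ V₃) :
    (modThick M q A hqM hA V₁ V₂ V₃).Q₂₃ = zerosOf (K := kW) ((Gink.jK A M ^ q) ^ q -
      algebraMap kW (FRes A M) (residue (Wfix A) (c0W M q A hqM hA))) := by
  show zerosOf (K := kW) (V₃.redF (jTop M q A) - _) = _
  rw [h.red₃]

variable [HasPrincipalDivisors Qb (FBar M)]

theorem modThick_degree_Q₁₁ (h : RedJ V₁ V₂ V₃) :
    Divisor.degree (modThick M q A hqM hA V₁ V₂ V₃).Q₁₁ = (dedekindPsi M : ℤ) := by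
  rw [modThick_Q₁₁ h, degree_polesOf_jK_resW hqM hA]

theorem modThick_degree_Q₁₂ (h : RedJ V₁ V₂ V₃) :
    Divisor.degree (modThick M q A hqM hA V₁ V₂ V₃).Q₁₂ = (dedekindPsi M : ℤ) := by
  rw [modThick_Q₁₂ h, degree_polesOf_jK_resW hqM hA]

theorem modThick_degree_Q₁₃ (h : RedJ V₁ V₂ V₃) :
    Divisor.degree (modThick M q A hqM hA V₁ V₂ V₃).Q₁₃ = (q : ℤ) * ((q : ℤ) * dedekindPsi M) := by
  rw [modThick_Q₁₃ h, LSb.Old.degree_polesOf_pow, LSb.Old.degree_polesOf_pow,
    degree_polesOf_jK_resW hqM hA]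

theorem dedekindPsi_pos' : (0 : ℤ) < dedekindPsi M := by
  exact_mod_cast BarField.dedekindPsi_pos M

/-- **`deg_Q₁_le`** (an equality) -/
theorem modThick_deg_Q₁_le (h : RedJ V₁ V₂ V₃) :
    Divisor.degree (modThick M q A hqM hA V₁ V₂ V₃).Q₁₁ +
      (modThick M q A hqM hA V₁ V₂ V₃).e * Divisor.degree (modThick M q A hqM hA V₁ V₂ V₃).Q₁₂ +
      Divisor.degree (modThick M q A hqM hA V₁ V₂ V₃).Q₁₃ ≤
      (modThick M q A hqM hA V₁ V₂ V₃).d₁ := by
  rw [modThick_degree_Q₁₁ h, modThick_degree_Q₁₂ h, modThick_degree_Q₁₃ h]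
  show (dedekindPsi M : ℤ) + ((q - 1 : ℕ) : ℤ) * dedekindPsi M + _ ≤
    ((dedekindPsi (M * q * q) : ℕ) : ℤ)
  rw [dedekindPsi_sq hqM, Nat.cast_sub hq.out.one_le]
  push_cast
  apply le_of_eq
  ring

/-- **`deg_Q₂_le`** (an equality) -/
theorem modThick_deg_Q₂_le (h : RedJ V₁ V₂ V₃) :
    Divisor.degree (modThick M q A hqM hA V₁ V₂ V₃).Q₂₁ +
      (modThick M q A hqM hA V₁ V₂ V₃).e * Divisor.degree (modThick M q A hqM hA V₁ V₂ V₃).Q₂₂ +
      Divisor.degree (modThick M q A hqM hA V₁ V₂ V₃).Q₂₃ ≤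
      (modThick M q A hqM hA V₁ V₂ V₃).d₂ := by
  have h1 : Divisor.degree (modThick M q A hqM hA V₁ V₂ V₃).Q₂₁ =
      Divisor.degree (modThick M q A hqM hA V₁ V₂ V₃).Q₁₁ := chartThick_degree_Q₂₁ _ _ _ _ _ _ _ _ _ _ _ _ _
  have h2 : Divisor.degree (modThick M q A hqM hA V₁ V₂ V₃).Q₂₂ =
      Divisor.degree (modThick M q A hqM hA V₁ V₂ V₃).Q₁₂ := chartThick_degree_Q₂₂ _ _ _ _ _ _ _ _ _ _ _ _ _
  have h3 : Divisor.degree (modThick M q A hqM hA V₁ V₂ V₃).Q₂₃ =
      Divisor.degree (modThick M q A hqM hA V₁ V₂ V₃).Q₁₃ := chartThick_degree_Q₂₃ _ _ _ _ _ _ _ _ _ _ _ _ _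
  rw [h1, h2, h3]
  exact modThick_deg_Q₁_le h

/-! ### the triple points avoid the boundaries of the charts -/

theorem modThick_x₁_not_mem (h : RedJ V₁ V₂ V₃) (c : Fin (nS M q A hqM hA)) :
    (modThick M q A hqM hA V₁ V₂ V₃).x₁ c ∉ (modThick M q A hqM hA V₁ V₂ V₃).Q₁₁.support ∧
      (modThick M q A hqM hA V₁ V₂ V₃).x₁ c ∉ (modThick M q A hqM hA V₁ V₂ V₃).Q₂₁.support := by
  rw [modThick_Q₁₁ h, modThick_Q₂₁ h]
  exact ⟨LSb.Unit.not_mem_support_polesOf (jK_mem_triplePt c),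
    LSb.Unit.not_mem_support_zerosOf (not_hasValueAt_triplePt₁ c)⟩

theorem modThick_x₂_not_mem (h : RedJ V₁ V₂ V₃) (c : Fin (nS M q A hqM hA)) :
    (modThick M q A hqM hA V₁ V₂ V₃).x₂ c ∉ (modThick M q A hqM hA V₁ V₂ V₃).Q₁₂.support ∧
      (modThick M q A hqM hA V₁ V₂ V₃).x₂ c ∉ (modThick M q A hqM hA V₁ V₂ V₃).Q₂₂.support := by
  rw [modThick_Q₁₂ h, modThick_Q₂₂ h]
  exact ⟨LSb.Unit.not_mem_support_polesOf (jK_mem_triplePt c),
    LSb.Unit.not_mem_support_zerosOf (not_hasValueAt_triplePt₁ c)⟩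

theorem modThick_x₃_not_mem (h : RedJ V₁ V₂ V₃) (c : Fin (nS M q A hqM hA)) :
    (modThick M q A hqM hA V₁ V₂ V₃).x₃ c ∉ (modThick M q A hqM hA V₁ V₂ V₃).Q₁₃.support ∧
      (modThick M q A hqM hA V₁ V₂ V₃).x₃ c ∉ (modThick M q A hqM hA V₁ V₂ V₃).Q₂₃.support := by
  rw [modThick_Q₁₃ h, modThick_Q₂₃ h]
  refine ⟨LSb.Unit.not_mem_support_polesOf ?_,
    LSb.Unit.not_mem_support_zerosOf (not_hasValueAt_triplePt₃ c)⟩
  exact pow_mem (pow_mem (jK_mem_triplePt c) q) q

/-! ### count and connectedness -/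

theorem modThick_count {g gM : ℕ}
    (hcount : g + q ≤ (q + 1) * (gM + nS M q A hqM hA)) :
    g + (modThick M q A hqM hA V₁ V₂ V₃).e + 1 ≤
      gM + (modThick M q A hqM hA V₁ V₂ V₃).e * gM + gM +
        (modThick M q A hqM hA V₁ V₂ V₃).s * ((modThick M q A hqM hA V₁ V₂ V₃).e + 2) := by
  show g + (q - 1) + 1 ≤ gM + (q - 1) * gM + gM + nS M q A hqM hA * ((q - 1) + 2)
  have h1 : q = (q - 1) + 1 := (Nat.sub_add_cancel hq.out.one_le).symm
  set r := q - 1 with hr
  set s := nS M q A hqM hA with hs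
  have hcount' : g + (r + 1) ≤ ((r + 1) + 1) * (gM + s) := by
    rw [← h1]; exact hcount
  nlinarith [hcount']

theorem modThick_s_pos {gM : ℕ} (hFk : IsCurveOfGenus kA (FRes A M) gM) :
    0 < (modThick M q A hqM hA V₁ V₂ V₃).s :=
  LSb.Unit.modS_pos hA (isGaussOne_nodeD1 M q A hqM hA) hFk

theorem modThick_e_pos : 0 < (modThick M q A hqM hA V₁ V₂ V₃).e := by
  show 0 < q - 1
  have := hq.out.two_le
  omega

/-! ### the degrees of the chart divisors on the generic fibre -/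

theorem coe_jTop : ((jTop M q A : FTop M q A) : FB (M * q * q)) = Gin0.jF (M * q * q) := by
  show Eis.xTop M q = _
  rw [Eis.xTop, Norm.jF_eq_jd]

/-- `deg P₁ = ψ(M q²)` -/
theorem degree_chartP₁ :
    Divisor.degree (chartP₁ M q A) = (dedekindPsi (M * q * q) : ℤ) := by
  haveI := S37lib.HeckeInst.hasPrincipalDivisors_FB (M * q * q)
  haveI : NeZero (M * q * q) :=
    ⟨Nat.mul_ne_zero (Nat.mul_ne_zero (NeZero.ne M) (NeZero.ne q)) (NeZero.ne q)⟩
  rw [chartP₁, coe_jTop]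
  exact LSb.Old.degree_polesOf_jF (M * q * q)

/-- `deg P₂ = ψ(M q²)` -/
theorem degree_chartP₂ :
    Divisor.degree (chartP₂ M q A hqM hA) = (dedekindPsi (M * q * q) : ℤ) := by
  haveI := S37lib.HeckeInst.hasPrincipalDivisors_FB (M * q * q)
  rw [chartP₂, LSb.Old.degree_zerosOf_sub_const]
  exact degree_chartP₁

end Modular

end Fermat.Agent.S36lib.Inst
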