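/-
S36lib / Inst / Assemble  (helper5)  --  the `Reg.ThickBase` record of the modular thick datum

For `D = modThick M q A hqM hA V₁ V₂ V₃`:

* `modThick_hasCharts`, `modThick_chartHyp` : the chart family of `D` is helper3's `chartL` of
  `P₁ = (j)_∞`, `P₂ = (j - c₀)_0` (all eight family fields of `ThickBase`, the Kummer system);
* `exists_genera_of_isAuxLevel` : at an auxiliary level the genera exist and satisfy COUNT;
* **`modThick_thickBase`** : the record `Reg.ThickBase D g gM gM gM` from the table `RedJ`, COUNT and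
  the four analytic bricks (`hD` = (N1), `chart₁₂₃`, `glue`), which enter as hypotheses.
-/
import Mathlib
import Fermat.Agent.S36lib.Inst.Ctx
import Fermat.Agent.S36lib.Fin.ChartInst
import Fermat.Agent.S36lib.Fin.AuxLevel

set_option autoImplicit false
set_option linter.unusedSectionVars false
set_option linter.unusedVariables false
set_option linter.style.haveILetI false

noncomputable section

namespace Fermat.Agent.S36lib.Inst

open AlgebraicCurve ModularCurve IsLocalRing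
open Fermat.Agent.S18lib Fermat.Agent.ProgramR
open Fermat.Agent.S36lib.Thick Fermat.Agent.S36lib.Desc Fermat.Agent.S36lib.Desc2
open Fermat.Agent.S37lib.HeckeInst (FB)
open Fermat.Agent.LSb (HasValueAt)

local notation "Qb" => AlgebraicClosure ℚ
local notation "GQ" => (AlgebraicClosure ℚ ≃ₐ[ℚ] AlgebraicClosure ℚ)

section Modular

variable {M q : ℕ} [NeZero M] [NeZero q] [hq : Fact q.Prime] {A : ValuationSubring Qb}
  {hqM : ¬ q ∣ M} {hA : A.LiesOverPrime q}

local notation "kA" => IsLocalRing.ResidueField A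
local notation "kW" => IsLocalRing.ResidueField (Wfix A)

variable [HasPrincipalDivisors (IsLocalRing.ResidueField A) (FRes A M)]
variable [HasPrincipalDivisors (IsLocalRing.ResidueField (Wfix A)) (FRes A M)]
variable [HasPrincipalDivisors Qb (FBar M)]

variable {V₁ : GaussDatum (Wfix A) (FTop M q A) (FRes A M)}
  {V₂ : RamGaussDatum (Wfix A) (FTop M q A) (FRes A M)}
  {V₃ : GaussDatum (Wfix A) (FTop M q A) (FRes A M)}

instance instNeZeroTop : NeZero (M * q * q) :=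
  ⟨Nat.mul_ne_zero (Nat.mul_ne_zero (NeZero.ne M) (NeZero.ne q)) (NeZero.ne q)⟩

instance instNeZeroMid : NeZero (M * q) :=
  ⟨Nat.mul_ne_zero (NeZero.ne M) (NeZero.ne q)⟩

/-- the chart family of the modular thick datum is `chartL` of `(P₁, P₂)` -/
theorem modThick_hasCharts :
    Fin.HasCharts (modThick M q A hqM hA V₁ V₂ V₃) (chartP₁ M q A) (chartP₂ M q A hqM hA) :=
  ⟨fun _ _ => rfl, degree_chartP₁.symm, degree_chartP₂.symm⟩

/-- the chart hypotheses for `P₁ = (j)_∞`, `P₂ = (j - c₀)_0` -/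
theorem modThick_chartHyp {g : ℕ} (hF : IsCurveOfGenus Qb (FB (M * q * q)) g) :
    Fin.ChartHyp (M * q * q) (HI A) (chartP₁ M q A) (chartP₂ M q A hqM hA) g :=
  Fin.chartHyp_polesOf_zerosOf hF (jTop M q A) ((c0W M q A hqM hA : Wfix A) : Kfix A)

/-- **genera and COUNT at an auxiliary level**: `36 ∣ M` (`q ≥ 5`), `9 ∣ M` (`q = 2`),
`4 ∣ M` (`q = 3`). -/
theorem exists_genera_of_isAuxLevel (hqM : ¬ q ∣ M) (hA : A.LiesOverPrime q)
    (haux : Fin.IsAuxLevel M q) :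
    ∃ g gM : ℕ, IsCurveOfGenus Qb (FB (M * q * q)) g ∧ IsCurveOfGenus kA (FRes A M) gM ∧
      g + q ≤ (q + 1) * (gM + nS M q A hqM hA) := by
  obtain ⟨g, hF2, -⟩ := Gin0.exists_isCurveOfGenus_FBar (M * q * q)
  rcases haux with ⟨h5, h36⟩ | ⟨h2, h9⟩ | ⟨h3, h4⟩
  · obtain ⟨gM, -, hFk⟩ := S18lib.G.exists_genus_of_five_le M A hqM hA
      (S37lib.B3.reductionInputsModL M A hqM hA) h5
    exact ⟨g, gM, hF2, hFk, Count.count_sq_mod_five_le h5 hqM hA
      (Fin.nuTwo_eq_zero_of_isAuxLevel h5 (Or.inl ⟨h5, h36⟩))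
      (Fin.nuThree_eq_zero_of_isAuxLevel h5 (Or.inl ⟨h5, h36⟩))
      (isGaussOne_nodeD1 M q A hqM hA) hF2 hFk⟩
  · subst h2
    obtain ⟨gM, -, hFk⟩ := S18lib.Mod23.exists_genus_nine M A rfl hqM hA h9
    exact ⟨g, gM, hF2, hFk, Count.count_sq_mod_two h9 hqM hA
      (isGaussOne_nodeD1 M 2 A hqM hA) hF2 hFk⟩
  · subst h3
    obtain ⟨gM, -, hFk⟩ := S18lib.Mod23.exists_genus_four M A rfl hqM hA h4
    exact ⟨g, gM, hF2, hFk, Count.count_sq_mod_three h4 hqM hA
      (isGaussOne_nodeD1 M 3 A hqM hA) hF2 hFk⟩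

/-- **THE `ThickBase` RECORD of the modular thick datum**, from the reduction table `RedJ`, COUNT
and the four analytic bricks (`hD` = (N1) for the thick ball, CHART on the three components, GLUE at
the triple points). -/
theorem modThick_thickBase {g gM : ℕ} (hF : IsCurveOfGenus Qb (FB (M * q * q)) g)
    (hFk : IsCurveOfGenus kA (FRes A M) gM) (h : RedJ V₁ V₂ V₃)
    (hcount : g + q ≤ (q + 1) * (gM + nS M q A hqM hA))
    (hD : (modThick M q A hqM hA V₁ V₂ V₃).HasLatticeBases)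
    (chart₁ : ∀ (a b : ℕ) (f : FTop M q A), f ∈ (modThick M q A hqM hA V₁ V₂ V₃).𝓛 a b →
      f ∈ (modThick M q A hqM hA V₁ V₂ V₃).O →
      (modThick M q A hqM hA V₁ V₂ V₃).V₁.redF f ∈
        riemannRochSpace ((modThick M q A hqM hA V₁ V₂ V₃).chartDiv₁ a b))
    (chart₂ : ∀ (a b : ℕ) (f : FTop M q A), f ∈ (modThick M q A hqM hA V₁ V₂ V₃).𝓛 a b →
      f ∈ (modThick M q A hqM hA V₁ V₂ V₃).O →
      (modThick M q A hqM hA V₁ V₂ V₃).red₂ f ∈
        riemannRochSpace ((modThick M q A hqM hA V₁ V₂ V₃).chartDiv₂ a b))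
    (chart₃ : ∀ (a b : ℕ) (f : FTop M q A), f ∈ (modThick M q A hqM hA V₁ V₂ V₃).𝓛 a b →
      f ∈ (modThick M q A hqM hA V₁ V₂ V₃).O →
      (modThick M q A hqM hA V₁ V₂ V₃).V₃.redF f ∈
        riemannRochSpace ((modThick M q A hqM hA V₁ V₂ V₃).chartDiv₃ a b))
    (glue : ∀ (a b : ℕ) (f : FTop M q A), f ∈ (modThick M q A hqM hA V₁ V₂ V₃).𝓛 a b →
      f ∈ (modThick M q A hqM hA V₁ V₂ V₃).O → ∀ c, ∃ α : kW,
      HasValueAt ((modThick M q A hqM hA V₁ V₂ V₃).x₁ c)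
          ((modThick M q A hqM hA V₁ V₂ V₃).V₁.redF f) α ∧
        HasValueAt ((modThick M q A hqM hA V₁ V₂ V₃).x₂ c)
          ((modThick M q A hqM hA V₁ V₂ V₃).red₂ f) α ∧
        HasValueAt ((modThick M q A hqM hA V₁ V₂ V₃).x₃ c)
          ((modThick M q A hqM hA V₁ V₂ V₃).V₃.redF f) α) :
    Reg.ThickBase (modThick M q A hqM hA V₁ V₂ V₃) g gM gM gM := by
  have hC := modThick_chartHyp (hqM := hqM) (hA := hA) hF
  have hH := modThick_hasCharts (hqM := hqM) (hA := hA) (V₁ := V₁) (V₂ := V₂) (V₃ := V₃)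
  have hψ := dedekindPsi_pos' (M := M)
  have hq0 : (0 : ℤ) < q := by exact_mod_cast hq.out.pos
  have d21 : Divisor.degree (modThick M q A hqM hA V₁ V₂ V₃).Q₂₁ =
      Divisor.degree (modThick M q A hqM hA V₁ V₂ V₃).Q₁₁ :=
    chartThick_degree_Q₂₁ _ _ _ _ _ _ _ _ _ _ _ _ _
  have d22 : Divisor.degree (modThick M q A hqM hA V₁ V₂ V₃).Q₂₂ =
      Divisor.degree (modThick M q A hqM hA V₁ V₂ V₃).Q₁₂ :=
    chartThick_degree_Q₂₂ _ _ _ _ _ _ _ _ _ _ _ _ _
  have d23 : Divisor.degree (modThick M q A hqM hA V₁ V₂ V₃).Q₂₃ =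
      Divisor.degree (modThick M q A hqM hA V₁ V₂ V₃).Q₁₃ :=
    chartThick_degree_Q₂₃ _ _ _ _ _ _ _ _ _ _ _ _ _
  exact
  { hF₁ := isCurveOfGenus_resW hq.out hA hFk
    hF₂ := isCurveOfGenus_resW hq.out hA hFk
    hF₃ := isCurveOfGenus_resW hq.out hA hFk
    π_mem := qK_mem A q
    π_not_unit := qK_inv_not_mem hq.out hA
    exists_zpow_mul_unit := exists_zpow_mul_unit hq.out hA
    e_pos := modThick_e_pos
    hD := hD
    finiteDimensional := hH.finiteDimensional hC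
    mono := fun ha hb => hH.mono hC ha hb
    inter := hH.inter hC
    mul_mem := fun hf hf' => hH.mul_mem hC hf hf'
    one_mem := hH.one_mem hC
    riemann := hH.riemann hC
    Q₁₁_nonneg := chartThick_Q₁₁_nonneg _ _ _ _ _ _ _ _ _ _ _ _ _
    Q₂₁_nonneg := chartThick_Q₂₁_nonneg _ _ _ _ _ _ _ _ _ _ _ _ _
    Q₁₂_nonneg := chartThick_Q₁₂_nonneg _ _ _ _ _ _ _ _ _ _ _ _ _
    Q₂₂_nonneg := chartThick_Q₂₂_nonneg _ _ _ _ _ _ _ _ _ _ _ _ _
    Q₁₃_nonneg := chartThick_Q₁₃_nonneg _ _ _ _ _ _ _ _ _ _ _ _ _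
    Q₂₃_nonneg := chartThick_Q₂₃_nonneg _ _ _ _ _ _ _ _ _ _ _ _ _
    Q₁_disjoint := chartThick_Q₁_disjoint _ _ _ _ _ _ _ _ _ _ _ _ _
    Q₂_disjoint := chartThick_Q₂_disjoint _ _ _ _ _ _ _ _ _ _ _ _ _
    Q₃_disjoint := chartThick_Q₃_disjoint _ _ _ _ _ _ _ _ _ _ _ _ _
    deg_Q₁₁_pos := by rw [modThick_degree_Q₁₁ h]; exact hψ
    deg_Q₂₁_pos := by rw [d21, modThick_degree_Q₁₁ h]; exact hψ
    deg_Q₁₂_pos := by rw [modThick_degree_Q₁₂ h]; exact hψ
    deg_Q₂₂_pos := by rw [d22, modThick_degree_Q₁₂ h]; exact hψ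
    deg_Q₁₃_pos := by rw [modThick_degree_Q₁₃ h]; positivity
    deg_Q₂₃_pos := by rw [d23, modThick_degree_Q₁₃ h]; positivity
    deg_Q₁_le := modThick_deg_Q₁_le h
    deg_Q₂_le := modThick_deg_Q₂_le h
    x₁_injective := triplePt_injective
    x₂_injective := triplePt_injective
    x₃_injective := triplePt_injective
    x₁_not_mem := modThick_x₁_not_mem h
    x₂_not_mem := modThick_x₂_not_mem h
    x₃_not_mem := modThick_x₃_not_mem h
    chart₁ := chart₁
    chart₂ := chart₂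
    chart₃ := chart₃
    glue := glue
    count := modThick_count hcount
    s_pos := modThick_s_pos hFk }

end Modular

end Fermat.Agent.S36lib.Inst
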