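/-
S36lib / Inst / Top  (helper5)  --  THE CONCRETE DATA of the modular instance

* `topV₁ = Val.gaussInfK₂` (`v₂₀`, helper9), `topV₂ = Eis.ramGaussK` (`v₁₁`, Eisenstein, helper2),
  `topV₃ = Val.gaussZeroK₂` (`v₀₂`, helper9) : the three `K`-rational places of level `M q²`;
* `lowW₁ = Desc2.gaussOneK` (`v₁₀`), `lowW₂ = Desc2.gaussTwoK` (`v₀₁`) (helper1) at level `M q`;
* **`topD M q A hqM hA : ThickDatum …` := `modThick … topV₁ topV₂ topV₃`**,
  **`lowD M q A hqM hA : J.LowDatum …` := `modLow … lowW₁ lowW₂`**;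
* `redJ_top : RedJ topV₁ topV₂ topV₃` (the reduction table of `j`);
* `topD_unif`, `topD_unif_pow`, `topD_unif_ne_zero` (the uniformizer of the middle component is
  `yTopFix - xTopFix`, `ϖ ^ (q-1) = q · unit`);
* **`topD_thickBase`** : `Reg.ThickBase topD g gM gM gM` from (N1), CHART, GLUE;
* **`topD_thickCtx`**  : `ThickCtx topD g gM gM gM` from `ThickBase` + helper8's `RegData`.
-/
import Mathlib
import Fermat.Agent.S36lib.Inst.Assemble
import Fermat.Agent.S36lib.Val.RedJ
import Fermat.Agent.S36lib.Eis.Ram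
import Fermat.Agent.S36lib.Desc2.Places

set_option autoImplicit false
set_option linter.unusedSectionVars false
set_option linter.unusedVariables false
set_option linter.style.haveILetI false

noncomputable section

namespace Fermat.Agent.S36lib.Inst

open AlgebraicCurve ModularCurve IsLocalRing
open Fermat.Agent.S18lib Fermat.Agent.ProgramR
open Fermat.Agent.S36lib.Thick Fermat.Agent.S36lib.Desc Fermat.Agent.S36lib.Desc2
open Fermat.Agent.S37lib.HeckeInst (FB)
open Fermat.Agent.LSb (HasValueAt)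

local notation "Qb" => AlgebraicClosure ℚ
local notation "GQ" => (AlgebraicClosure ℚ ≃ₐ[ℚ] AlgebraicClosure ℚ)

section Data

variable (M q : ℕ) [NeZero M] [NeZero q] [hq : Fact q.Prime] (A : ValuationSubring Qb)
  (hqM : ¬ q ∣ M) (hA : A.LiesOverPrime q)

local notation "kA" => IsLocalRing.ResidueField A
local notation "kW" => IsLocalRing.ResidueField (Wfix A)

/-- `v₂₀` over `(Kfix A, Wfix A)` -/
abbrev topV₁ : GaussDatum (Wfix A) (FTop M q A) (FRes A M) := Val.gaussInfK₂ M q A hqM hA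

/-- `v₁₁` (Eisenstein) over `(Kfix A, Wfix A)` -/
abbrev topV₂ : RamGaussDatum (Wfix A) (FTop M q A) (FRes A M) :=
  Eis.ramGaussK M q A hqM hA (fun _ => rfl)

/-- `v₀₂` over `(Kfix A, Wfix A)` -/
abbrev topV₃ : GaussDatum (Wfix A) (FTop M q A) (FRes A M) := Val.gaussZeroK₂ M q A hqM hA

/-- `v₁₀` over `(Kfix A, Wfix A)` -/
abbrev lowW₁ : GaussDatum (Wfix A) (FMid M q A) (FRes A M) := Desc2.gaussOneK M q A hqM hA

/-- `v₀₁` over `(Kfix A, Wfix A)` -/
abbrev lowW₂ : GaussDatum (Wfix A) (FMid M q A) (FRes A M) := Desc2.gaussTwoK M q A hqM hA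

/-- **THE LOW DATUM of the instance** -/
abbrev lowD : J.LowDatum (Wfix A) (FMid M q A) (FRes A M) (FRes A M) :=
  modLow M q A hqM hA (lowW₁ M q A hqM hA) (lowW₂ M q A hqM hA)

variable [HasPrincipalDivisors (IsLocalRing.ResidueField (Wfix A)) (FRes A M)]

/-- **THE THICK DATUM of the instance** -/
abbrev topD : ThickDatum (Wfix A) (FTop M q A) (FRes A M) (FRes A M) (FRes A M) :=
  modThick M q A hqM hA (topV₁ M q A hqM hA) (topV₂ M q A hqM hA) (topV₃ M q A hqM hA)

/-- the reduction table of `j` -/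
theorem redJ_top :
    RedJ (topV₁ M q A hqM hA) (topV₂ M q A hqM hA) (topV₃ M q A hqM hA) :=
  ⟨Val.gaussInfK₂_redF_jTop M q A hqM hA, Eis.ramGaussK_redF_xTopFix M q A hqM hA (fun _ => rfl),
    Val.gaussZeroK₂_redF_jTop M q A hqM hA⟩

/-- the uniformizer of the middle component -/
theorem topD_unif :
    (topD M q A hqM hA).ϖ = Norm.yTopFix M q (HI A) - Norm.xTopFix M q (HI A) :=
  Eis.ramGaussK_unif M q A hqM hA (fun _ => rfl)

theorem topD_unif_ne_zero : (topD M q A hqM hA).ϖ ≠ 0 :=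
  Eis.ramGaussK_unif_ne_zero M q A hqM hA (fun _ => rfl)

/-- `ϖ ^ (q - 1) = q · unit` -/
theorem topD_unif_pow :
    ∃ u : (topD M q A hqM hA).V₂.Oˣ, (topD M q A hqM hA).ϖ ^ (topD M q A hqM hA).e =
      algebraMap (Kfix A) (FTop M q A) (topD M q A hqM hA).π *
        ((u : (topD M q A hqM hA).V₂.O) : FTop M q A) :=
  Eis.ramGaussK_unif_pow M q A hqM hA (fun _ => rfl)

end Data

end Fermat.Agent.S36lib.Inst
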