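/-
S36lib / Inst / UnifChart  (helper5)  --  `unif_mem_chart` for the Eisenstein uniformizer

The poles of `ϖ = j(t^(q²)) - j(t)` on `X₀(M q²)` are cusps (poles of `j`):

* `jq_mem_of_xTop_mem`  : `j(t^q)` is regular where `j(t)` is (modular equation `Φ_q`);
* `yTop_mem_of_jq_mem`  : `j(t^(q²))` is regular where `j(t^q)` is (`Φ_q` transported by `w_{q²}`);
* `yTop_mem_regAway`    : `j(t^(q²)) ∈ regAway ℚ̄ j`;
* **`topD_unif_mem_chart`** : `∃ a b, ϖ ∈ 𝓛 a b` for the modular thick datum.
-/
import Mathlib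
import Fermat.Agent.S36lib.Inst.Top

set_option autoImplicit false
set_option linter.unusedSectionVars false
set_option linter.unusedVariables false
set_option linter.style.haveILetI false

noncomputable section

namespace Fermat.Agent.S36lib.Inst

open AlgebraicCurve ModularCurve IsLocalRing
open Fermat.Agent.S18lib Fermat.Agent.ProgramR
open Fermat.Agent.S36lib.Thick Fermat.Agent.S36lib.Desc Fermat.Agent.S36lib.Desc2
open Fermat.Agent.S36lib.AL Fermat.Agent.S36lib.Eis
open Fermat.Agent.ProgramR.BarField Fermat.Agent.LSb.Val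
open Fermat.Agent.S37lib.HeckeInst (FB)
open Fermat.Agent.S37lib.ConjNorm
open Fermat.Agent.LSb (HasValueAt)

local notation "Qb" => AlgebraicClosure ℚ
local notation "GQ" => (AlgebraicClosure ℚ ≃ₐ[ℚ] AlgebraicClosure ℚ)

section Poles

variable (M q : ℕ) [NeZero M] [NeZero q] [hq : Fact q.Prime] (hqM : ¬ q ∣ M)

/-- `j(t^q)` at level `M q²` -/
def jqTop : FBar (M * q * q) := jd (M * q * q) q (Dvd.intro_left (M * q) rfl)

theorem jBeta_eq_jqTop : jBeta (M * q) q = jqTop M q := by
  apply Subtype.ext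
  rw [coe_jBeta, jqTop, coe_jd_eq]

theorem jAlpha_eq_xTop : jAlpha (M * q) q = xTop M q := by
  apply Subtype.ext
  rw [coe_jAlpha, coe_xTop]

variable {M q}

/-- `j(t^q)` is regular where `j(t)` is -/
theorem jq_mem_of_xTop_mem (v : Place Qb (FBar (M * q * q)))
    (h : xTop M q ∈ v.toValuationSubring) : jqTop M q ∈ v.toValuationSubring := by
  rw [← jBeta_eq_jqTop, jBeta_mem_iff, jAlpha_eq_xTop]
  exact h

include hqM in
/-- `w_{q²}` fixes `j(t^q)` -/
theorem wqq_jqTop : wqq M q hq.out hqM (jqTop M q) = jqTop M q := by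
  have h := wqq_jd_mul M q hq.out hqM 1 (one_dvd M)
  rw [jqTop, jd_congr (show q = 1 * q by ring) _
    ((Nat.mul_dvd_mul_right (one_dvd M) q).trans (Dvd.intro _ rfl))]
  exact h

include hqM in
/-- `Φ_q(j(t^(q²)), j(t^q)) = 0` -/
theorem biEval₂_yTop_jqTop :
    biEval₂ (iotaF (M * q) q) (Fermat.Agent.S28lib.phiZ q) (yTop M q) (jqTop M q) = 0 := by
  have h := biEval₂_jAlpha_jBeta (M * q) q
  rw [jAlpha_eq_xTop, jBeta_eq_jqTop] at h
  have h2 := congrArg (wqq M q hq.out hqM : FBar (M * q * q) →+* FBar (M * q * q)) h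
  rw [map_biEval₂, map_zero] at h2
  have hι : ((wqq M q hq.out hqM : FBar (M * q * q) →+* FBar (M * q * q))).comp
      (iotaF (M * q) q) = iotaF (M * q) q := by
    apply RingHom.ext
    intro c
    show wqq M q hq.out hqM (algebraMap Qb (FBar (M * q * q)) _) = _
    rw [AlgEquiv.commutes]
    rfl
  rw [hι] at h2
  have e1 : (wqq M q hq.out hqM : FBar (M * q * q) →+* FBar (M * q * q)) (xTop M q) =
      yTop M q := wqq_xTop M q hq.out hqM
  have e2 : (wqq M q hq.out hqM : FBar (M * q * q) →+* FBar (M * q * q)) (jqTop M q) =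
      jqTop M q := wqq_jqTop hqM
  rw [e1, e2] at h2
  exact h2

include hqM in
/-- `j(t^(q²))` is regular where `j(t^q)` is -/
theorem yTop_mem_of_jq_mem (v : Place Qb (FBar (M * q * q)))
    (h : jqTop M q ∈ v.toValuationSubring) : yTop M q ∈ v.toValuationSubring :=
  mem_of_biEval₂_eq_zero v _ (Fermat.Agent.S28lib.phiZ_monic q) (biEval₂_yTop_jqTop hqM) h

include hqM in
/-- **`j(t^(q²))` is regular off the cusps** -/
theorem yTop_mem_regAway : yTop M q ∈ LSb.Unit.regAway Qb (xTop M q) := fun v hv =>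
  yTop_mem_of_jq_mem hqM v (jq_mem_of_xTop_mem v hv)

end Poles

section Chart

variable {M q : ℕ} [NeZero M] [NeZero q] [hq : Fact q.Prime] {A : ValuationSubring Qb}
  {hqM : ¬ q ∣ M} {hA : A.LiesOverPrime q}

variable [HasPrincipalDivisors (IsLocalRing.ResidueField A) (FRes A M)]
variable [HasPrincipalDivisors (IsLocalRing.ResidueField (Wfix A)) (FRes A M)]
variable [HasPrincipalDivisors Qb (FBar M)]

/-- a place where `j` has a pole lies in the support of `P₁ = (j)_∞` -/
theorem mem_support_chartP₁ (v : Place Qb (FB (M * q * q)))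
    (hv : xTop M q ∉ v.toValuationSubring) : v ∈ (chartP₁ M q A).support := by
  haveI := S37lib.HeckeInst.hasPrincipalDivisors_FB (M * q * q)
  rw [Finsupp.mem_support_iff, chartP₁]
  show polesOf (K := Qb) (xTop M q) v ≠ 0
  rw [polesOf_apply]
  have h1 : v.ord (xTop M q) < 0 := by
    by_contra h
    exact hv ((FF.mem_iff_ord_nonneg v _).2 (not_lt.1 h))
  have : max (-v.ord (xTop M q)) 0 = -v.ord (xTop M q) := max_eq_left (by linarith)
  rw [this]
  linarith

/-- **`unif_mem_chart`**: the Eisenstein uniformizer `ϖ = j(t^(q²)) - j(t)` lies in a chart space -/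
theorem topD_unif_mem_chart {g : ℕ} (hF : IsCurveOfGenus Qb (FB (M * q * q)) g) :
    ∃ a b : ℕ, (topD M q A hqM hA).ϖ ∈ (topD M q A hqM hA).𝓛 a b := by
  refine Fin.HasCharts.unif_mem_chart (modThick_hasCharts (hqM := hqM) (hA := hA))
    (modThick_chartHyp (hqM := hqM) (hA := hA) hF) (fun v hv => Or.inl ?_)
  apply mem_support_chartP₁
  intro hx
  have hy := yTop_mem_regAway hqM v hx
  have hϖ : (((topD M q A hqM hA).ϖ : FTop M q A) : FB (M * q * q)) = yTop M q - xTop M q := by
    rw [topD_unif]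
    rfl
  rw [hϖ] at hv
  have := (FF.mem_iff_ord_nonneg v _).1 (v.toValuationSubring.sub_mem hy hx)
  linarith

end Chart

end Fermat.Agent.S36lib.Inst
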