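/-
S36lib / Inst / ThickTop  (helper5)  --  `ThickBase` and `ThickCtx` of the modular thick datum `topD`

* `thickWithUnif_eq_self` : helper8's change of uniformizer to `ϖ = D.V₂.unif` is the identity;
* **`topD_thickBase`** : `Reg.ThickBase topD g gM gM gM` from COUNT, (N1), CHART, GLUE;
* **`topD_thickCtx`**  : `ThickCtx topD g gM gM gM` from `ThickBase` + helper8's `RegData` at the triple
  points for `ϖ = yTopFix - xTopFix` (the uniformizer of `topD` itself).
-/
import Mathlib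
import Fermat.Agent.S36lib.Inst.UnifChart

set_option autoImplicit false
set_option linter.unusedSectionVars false
set_option linter.unusedVariables false
set_option linter.style.haveILetI false

noncomputable section

namespace Fermat.Agent.S36lib.Inst

open AlgebraicCurve ModularCurve IsLocalRing
open Fermat.Agent.S18lib Fermat.Agent.ProgramR
open Fermat.Agent.S36lib.Thick Fermat.Agent.S36lib.Desc Fermat.Agent.S36lib.Desc2
open Fermat.Agent.S37lib.HeckeInst (FB)
open Fermat.Agent.LSb (HasValueAt)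

local notation "Qb" => AlgebraicClosure ℚ
local notation "GQ" => (AlgebraicClosure ℚ ≃ₐ[ℚ] AlgebraicClosure ℚ)

section Generic

variable {K : Type*} [Field K] {R : ValuationSubring K}
variable {F : Type*} [Field F] [Algebra K F]
variable {F₁ F₂ F₃ : Type*} [Field F₁] [Field F₂] [Field F₃]
variable [Algebra (IsLocalRing.ResidueField R) F₁] [Algebra (IsLocalRing.ResidueField R) F₂]
variable [Algebra (IsLocalRing.ResidueField R) F₃]

/-- the change of uniformizer to the uniformizer itself is the identity -/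
theorem thickWithUnif_eq_self (D : ThickDatum R F F₁ F₂ F₃) (h0 : D.V₂.unif ≠ 0) (ϖ : F)
    (hϖ : D.V₂.unif = ϖ) (hv : D.V₂.O.valuation ϖ = D.V₂.O.valuation D.V₂.unif) :
    Reg.thickWithUnif D ϖ h0 hv = D := by
  subst hϖ
  rfl

/-- helper8's assembly for the uniformizer of the datum itself -/
theorem thickCtx_of_regData_self {D : ThickDatum R F F₁ F₂ F₃} {g g₁ g₂ g₃ : ℕ}
    (B : Reg.ThickBase D g g₁ g₂ g₃) {S : Subring F} {m : ℕ} {E₁ E₂ E₃ ϖ : F}
    (h0 : D.V₂.unif ≠ 0) (hϖ : D.V₂.unif = ϖ)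
    {a b : ℕ} {f₁ f₃ : Fin D.s → F}
    (h : ∀ c, Reg.RegData (k := IsLocalRing.ResidueField R) (Reg.pl₁ D) (Reg.pl₂ D) (Reg.pl₃ D)
      (D.x₁ c) (D.x₂ c) (D.x₃ c) S (algebraMap K F D.π) D.e m E₁ E₂ E₃ (f₁ c) (f₃ c) ϖ)
    (hf₁ : ∀ c, f₁ c ∈ D.𝓛 a b) (hf₃ : ∀ c, f₃ c ∈ D.𝓛 a b)
    (hchart : ∃ a b : ℕ, ϖ ∈ D.𝓛 a b) : ThickCtx D g g₁ g₂ g₃ := by
  have hv : D.V₂.O.valuation ϖ = D.V₂.O.valuation D.V₂.unif := by rw [hϖ]
  have := Reg.thickCtx_of_regData B h0 hv h hf₁ hf₃ hchart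
  rwa [thickWithUnif_eq_self D h0 ϖ hϖ hv] at this

end Generic

section Modular

variable {M q : ℕ} [NeZero M] [NeZero q] [hq : Fact q.Prime] {A : ValuationSubring Qb}
  {hqM : ¬ q ∣ M} {hA : A.LiesOverPrime q}

local notation "kA" => IsLocalRing.ResidueField A
local notation "kW" => IsLocalRing.ResidueField (Wfix A)

variable [HasPrincipalDivisors (IsLocalRing.ResidueField A) (FRes A M)]
variable [HasPrincipalDivisors (IsLocalRing.ResidueField (Wfix A)) (FRes A M)]
variable [HasPrincipalDivisors Qb (FBar M)]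

/-- **the `ThickBase` record of `topD`** from COUNT and the analytic bricks (N1), CHART, GLUE -/
theorem topD_thickBase {g gM : ℕ} (hF : IsCurveOfGenus Qb (FB (M * q * q)) g)
    (hFk : IsCurveOfGenus kA (FRes A M) gM)
    (hcount : g + q ≤ (q + 1) * (gM + nS M q A hqM hA))
    (hD : (topD M q A hqM hA).HasLatticeBases)
    (chart₁ : ∀ (a b : ℕ) (f : FTop M q A), f ∈ (topD M q A hqM hA).𝓛 a b →
      f ∈ (topD M q A hqM hA).O →
      (topD M q A hqM hA).V₁.redF f ∈ riemannRochSpace ((topD M q A hqM hA).chartDiv₁ a b))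
    (chart₂ : ∀ (a b : ℕ) (f : FTop M q A), f ∈ (topD M q A hqM hA).𝓛 a b →
      f ∈ (topD M q A hqM hA).O →
      (topD M q A hqM hA).red₂ f ∈ riemannRochSpace ((topD M q A hqM hA).chartDiv₂ a b))
    (chart₃ : ∀ (a b : ℕ) (f : FTop M q A), f ∈ (topD M q A hqM hA).𝓛 a b →
      f ∈ (topD M q A hqM hA).O →
      (topD M q A hqM hA).V₃.redF f ∈ riemannRochSpace ((topD M q A hqM hA).chartDiv₃ a b))
    (glue : ∀ (a b : ℕ) (f : FTop M q A), f ∈ (topD M q A hqM hA).𝓛 a b →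
      f ∈ (topD M q A hqM hA).O → ∀ c, ∃ α : kW,
      HasValueAt ((topD M q A hqM hA).x₁ c) ((topD M q A hqM hA).V₁.redF f) α ∧
        HasValueAt ((topD M q A hqM hA).x₂ c) ((topD M q A hqM hA).red₂ f) α ∧
        HasValueAt ((topD M q A hqM hA).x₃ c) ((topD M q A hqM hA).V₃.redF f) α) :
    Reg.ThickBase (topD M q A hqM hA) g gM gM gM :=
  modThick_thickBase hF hFk (redJ_top M q A hqM hA) hcount hD chart₁ chart₂ chart₃ glue

/-- **the `ThickCtx` of `topD`** from `ThickBase` and helper8's `RegData` at the triple points for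
the Eisenstein uniformizer `ϖ = yTopFix - xTopFix`. -/
theorem topD_thickCtx {g gM : ℕ} (hF : IsCurveOfGenus Qb (FB (M * q * q)) g)
    (B : Reg.ThickBase (topD M q A hqM hA) g gM gM gM)
    {S : Subring (FTop M q A)} {m : ℕ} {E₁ E₂ E₃ : FTop M q A} {a b : ℕ}
    {f₁ f₃ : Fin (topD M q A hqM hA).s → FTop M q A}
    (h : ∀ c, Reg.RegData (k := kW) (Reg.pl₁ (topD M q A hqM hA)) (Reg.pl₂ (topD M q A hqM hA))
      (Reg.pl₃ (topD M q A hqM hA)) ((topD M q A hqM hA).x₁ c) ((topD M q A hqM hA).x₂ c)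
      ((topD M q A hqM hA).x₃ c) S
      (algebraMap (Kfix A) (FTop M q A) (topD M q A hqM hA).π) (topD M q A hqM hA).e m E₁ E₂ E₃
      (f₁ c) (f₃ c) (Norm.yTopFix M q (HI A) - Norm.xTopFix M q (HI A)))
    (hf₁ : ∀ c, f₁ c ∈ (topD M q A hqM hA).𝓛 a b)
    (hf₃ : ∀ c, f₃ c ∈ (topD M q A hqM hA).𝓛 a b) :
    ThickCtx (topD M q A hqM hA) g gM gM gM := by
  refine thickCtx_of_regData_self B (topD_unif_ne_zero M q A hqM hA) (topD_unif M q A hqM hA)
    h hf₁ hf₃ ?_
  rw [← topD_unif M q A hqM hA]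
  exact topD_unif_mem_chart hF

end Modular

end Fermat.Agent.S36lib.Inst
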